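import Mathlib
import Fermat.Agent.S18x.Dict.H29_Div
import Fermat.Agent.S37x.Red.H15_Rat
import Fermat.Agent.S24.H15_BridgeRes

/-!
# W10 (S34) / (F-alpha) (helper15): descent of a function to a number field over which all its
zeros and poles are rational

`L = ℚ̄`, `F_L = modularFunctionFieldBar M`, `F_K = modularFunctionFieldFullC K M` for an
intermediate field `K` of `L / ℚ`, `ι = Dict.H22.iotaK K M : F_K → F_L`.

* `h15_div_rat_descent` : the statement of `Dict.H29.h29_div_descent` (descent of `y ∈ F_L` with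
  `m ∣ div y` to `f ∈ F_K` with `m ∣ div f`, for every sufficiently large number field `K`) with
  one more conclusion: every place `v` of `F_K / K` with `ord_v f ≠ 0` is `K`-rational
  (`S24.RH.ResidueTrivial v`: every function regular at `v` is congruent to a constant of `K`).

Proof: the finitely many places `P` of the support of `div y` have fields of rationality `K₀(P)`
(`Red.H15.h15_rat`); a place `v` of `F_K` with `ord_v f ≠ 0` lies below such a `P`
(`Dict.H22.exists_place_above_intermediate`).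
-/

set_option autoImplicit false
set_option linter.unusedSectionVars false
set_option linter.style.haveILetI false
set_option synthInstance.maxHeartbeats 400000
set_option maxHeartbeats 1000000

open HahnSeries IntermediateField AlgebraicCurve ModularCurve

noncomputable section

namespace Fermat.Agent.S34x.Dict.H15

open Fermat.Agent.S18x.Dict.H22

local notation "Lbar" => AlgebraicClosure ℚ

/-- A finite family of number fields is contained in one number field. -/
theorem h15_exists_bound {ι : Type*} (S : Finset ι) (Kf : ι → IntermediateField ℚ Lbar)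
    (hKf : ∀ i, FiniteDimensional ℚ (Kf i)) :
    ∃ K₀ : IntermediateField ℚ Lbar, FiniteDimensional ℚ K₀ ∧ ∀ i ∈ S, Kf i ≤ K₀ := by
  classical
  induction S using Finset.induction_on with
  | empty => exact ⟨⊥, inferInstance, fun i hi => absurd hi (Finset.notMem_empty i)⟩
  | insert a S _ ih =>
    obtain ⟨K₁, hK₁, h₁⟩ := ih
    haveI := hK₁
    haveI := hKf a
    refine ⟨K₁ ⊔ Kf a, IntermediateField.finiteDimensional_sup K₁ (Kf a), fun i hi => ?_⟩
    rcases Finset.mem_insert.mp hi with rfl | hi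
    · exact le_sup_right
    · exact (h₁ i hi).trans le_sup_left

variable (M : ℕ) [NeZero M]

/-- A place `v` of `F_K` lying below a place `P` of `F_L` at which the values of the functions
of `F_K` are in `K` is `K`-rational. -/
theorem h15_residueTrivial_of_above (K : IntermediateField ℚ Lbar)
    (v : Place ↥K ↥(modularFunctionFieldFullC ↥K M))
    (P : Place Lbar ↥(modularFunctionFieldBar M)) (e : ℕ) (he : 0 < e)
    (hord : ∀ g : ↥(modularFunctionFieldFullC ↥K M), P.ord (iotaK ↥K M g) = (e : ℤ) * v.ord g)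
    (hrat : ∀ f : ↥(modularFunctionFieldFullC ↥K M), 0 ≤ P.ord (iotaK ↥K M f) →
      ∃ c : ↥K, iotaK ↥K M f = algebraMap Lbar ↥(modularFunctionFieldBar M) (c : Lbar) ∨
        0 < P.ord (iotaK ↥K M f -
          algebraMap Lbar ↥(modularFunctionFieldBar M) (c : Lbar))) :
    Fermat.Agent.S24.RH.ResidueTrivial v := by
  intro u
  have he' : (0 : ℤ) < (e : ℤ) := by exact_mod_cast he
  have hu0 : 0 ≤ v.ord (u : ↥(modularFunctionFieldFullC ↥K M)) :=
    (Fermat.Agent.S24.RH.ord_nonneg_iff v).mpr u.2
  have hPu : 0 ≤ P.ord (iotaK ↥K M (u : ↥(modularFunctionFieldFullC ↥K M))) := by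
    rw [hord]
    exact mul_nonneg he'.le hu0
  obtain ⟨c, hc⟩ := hrat _ hPu
  refine ⟨c, ?_⟩
  have hcoe : ((u - algebraMap ↥K v.toValuationSubring c : v.toValuationSubring) :
      ↥(modularFunctionFieldFullC ↥K M)) =
      (u : ↥(modularFunctionFieldFullC ↥K M)) -
        algebraMap ↥K ↥(modularFunctionFieldFullC ↥K M) c := rfl
  have hι : iotaK ↥K M ((u : ↥(modularFunctionFieldFullC ↥K M)) -
      algebraMap ↥K ↥(modularFunctionFieldFullC ↥K M) c) =
      iotaK ↥K M (u : ↥(modularFunctionFieldFullC ↥K M)) -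
        algebraMap Lbar ↥(modularFunctionFieldBar M) (c : Lbar) := by
    rw [map_sub, iotaK_algebraMap]
    rfl
  rcases hc with hc | hc
  · have h0 : (u : ↥(modularFunctionFieldFullC ↥K M)) -
        algebraMap ↥K ↥(modularFunctionFieldFullC ↥K M) c = 0 := by
      apply (iotaK ↥K M).injective
      rw [hι, hc, sub_self, map_zero]
    have h1 : (u - algebraMap ↥K v.toValuationSubring c : v.toValuationSubring) = 0 :=
      Subtype.ext (by rw [hcoe, h0]; rfl)
    rw [h1]
    exact Ideal.zero_mem _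
  · rw [← hι, hord] at hc
    have hpos : 0 < v.ord ((u : ↥(modularFunctionFieldFullC ↥K M)) -
        algebraMap ↥K ↥(modularFunctionFieldFullC ↥K M) c) := by
      by_contra hneg
      rw [not_lt] at hneg
      have := mul_nonpos_of_nonneg_of_nonpos he'.le hneg
      omega
    obtain ⟨hmem, hmax⟩ := Fermat.Agent.S24.RH.mem_maximalIdeal_of_ord_pos v hpos
    exact hmax

/-- **(F-alpha)**: `Dict.H29.h29_div_descent` together with the rationality of the zeros and
poles: for every sufficiently large number field `K`, the function `y` (with `m ∣ div y`) comes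
from `f ∈ F_K`, `m ∣ ord_v f` at every place `v` of `F_K / K`, and every place `v` of `F_K / K`
with `ord_v f ≠ 0` is `K`-rational. -/
theorem h15_div_rat_descent (m : ℕ) (y : ↥(modularFunctionFieldBar M)) (hy : y ≠ 0)
    (hdiv : ∀ P : Place Lbar ↥(modularFunctionFieldBar M), (m : ℤ) ∣ P.ord y)
    (T : Finset ↥(modularFunctionFieldBar M)) :
    ∃ K₀ : IntermediateField ℚ Lbar, FiniteDimensional ℚ K₀ ∧
      ∀ K : IntermediateField ℚ Lbar, K₀ ≤ K →
        (∀ x ∈ T, ∃ x' : ↥(modularFunctionFieldFullC ↥K M), iotaK ↥K M x' = x) ∧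
        ∃ f : ↥(modularFunctionFieldFullC ↥K M), iotaK ↥K M f = y ∧
          (∀ v : Place ↥K ↥(modularFunctionFieldFullC ↥K M), (m : ℤ) ∣ v.ord f) ∧
          (∀ v : Place ↥K ↥(modularFunctionFieldFullC ↥K M), v.ord f ≠ 0 →
            Fermat.Agent.S24.RH.ResidueTrivial v) := by
  classical
  obtain ⟨K₁, hfin₁, hK₁⟩ := Fermat.Agent.S18x.Dict.H29.h29_div_descent M
    (Fermat.Agent.S18x.Desc.H19.h19_exists_descent_finset M) m y hy hdiv T
  obtain ⟨D, hD⟩ := Fermat.Agent.S18x.E.H12.stDiv M y hy
  choose K₂ hfin₂ hK₂ using fun P : Place Lbar ↥(modularFunctionFieldBar M) =>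
    Fermat.Agent.S37x.Red.H15.h15_rat M P
  obtain ⟨K₃, hfin₃, hK₃⟩ := h15_exists_bound D.support K₂ hfin₂
  haveI := hfin₁
  haveI := hfin₃
  refine ⟨K₁ ⊔ K₃, IntermediateField.finiteDimensional_sup K₁ K₃, fun K hK => ?_⟩
  obtain ⟨hT, f, hf, hv⟩ := hK₁ K (le_sup_left.trans hK)
  refine ⟨hT, f, hf, hv, fun v hvf => ?_⟩
  obtain ⟨P, -, -, e, he, hord⟩ := exists_place_above_intermediate K M v
  have hP : P ∈ D.support := by
    rw [Finsupp.mem_support_iff, hD, ← hf, hord]
    exact mul_ne_zero (by exact_mod_cast he.ne') hvf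
  exact h15_residueTrivial_of_above M K v P e he hord
    (hK₂ P K ((hK₃ P hP).trans (le_sup_right.trans hK)))

/-- **(F-alpha), degree form** (the spelling `hrat` of `Dict.H11.h11_LP_both`): every place `v`
of `F_K / K` with `ord_v f ≠ 0` has degree one. -/
theorem h15_div_rat_descent_deg (m : ℕ) (y : ↥(modularFunctionFieldBar M)) (hy : y ≠ 0)
    (hdiv : ∀ P : Place Lbar ↥(modularFunctionFieldBar M), (m : ℤ) ∣ P.ord y)
    (T : Finset ↥(modularFunctionFieldBar M)) :
    ∃ K₀ : IntermediateField ℚ Lbar, FiniteDimensional ℚ K₀ ∧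
      ∀ K : IntermediateField ℚ Lbar, K₀ ≤ K →
        (∀ x ∈ T, ∃ x' : ↥(modularFunctionFieldFullC ↥K M), iotaK ↥K M x' = x) ∧
        ∃ f : ↥(modularFunctionFieldFullC ↥K M), iotaK ↥K M f = y ∧
          (∀ v : Place ↥K ↥(modularFunctionFieldFullC ↥K M), (m : ℤ) ∣ v.ord f) ∧
          (∀ v : Place ↥K ↥(modularFunctionFieldFullC ↥K M), v.ord f ≠ 0 → v.deg = 1) := by
  obtain ⟨K₀, hfin, hK₀⟩ := h15_div_rat_descent M m y hy hdiv T
  refine ⟨K₀, hfin, fun K hK => ?_⟩
  obtain ⟨hT, f, hf, hv, hrat⟩ := hK₀ K hK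
  exact ⟨hT, f, hf, hv, fun v hvf =>
    Fermat.Agent.S24.RH.deg_eq_one_of_residueTrivial v (hrat v hvf)⟩

end Fermat.Agent.S34x.Dict.H15
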