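import Mathlib
import Fermat.Agent.S18x.Spec.H26_Adapt

/-!
# S34 (W10), stage (F-INST) (helper16): the instance layer of the two charts, abstract form

`O` a discrete valuation ring with uniformiser `π` and fraction field `K`, `F ⊇ K` a field of
characteristic zero, `x : F` transcendental over `O` with `F` finite over `K(x)`
(`H26FinOver O x`).  `B := (chart O x).toSubring` is the chart of the model (the integral
closure of `O[x]` in `F`) and `A := (chart K x).toSubring` the chart of the generic fibre (the
integral closure of `K[x]` in `F`).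

* `h16_chart_le` : `B ≤ A`;
* `h16_chart_scale` : every `a ∈ A` has `π ^ k * a ∈ B` (`A = B[1/π]`);
* `h16AlgK`, `h16_tower` : the `K`-algebra structure of `A` and the tower `K → A → F`;
* `h16_transcendental_K`, `h16_finOver_K` : the hypotheses pass from `O` to `K`;
* `h16_isDedekind` : `A` is a Dedekind domain;
* `h16_isFractionRing` : `F` is the fraction field of `A`;
* `h16_isNoetherian` : `B` is a noetherian ring;
* `h16_inst` : all of them at once.
-/

set_option autoImplicit false
set_option linter.style.haveILetI false
set_option linter.unusedSectionVars false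
set_option linter.unusedVariables false

open Polynomial

namespace Fermat.Agent.S34x.Dict.H16

open Fermat.Agent.S18x.Spec.H26

section Base

variable {O K F : Type*} [CommRing O] [Field K] [Algebra O K]
  [Field F] [Algebra K F] [Algebra O F] [IsScalarTower O K F]

/-- `O[x] ⊆ K[x]`. -/
theorem h16_adjoin_mem (x : F) {c : F} (hc : c ∈ Algebra.adjoin O {x}) :
    c ∈ Algebra.adjoin K {x} := by
  have h : Algebra.adjoin O {x} ≤ (Algebra.adjoin K {x}).restrictScalars O := by
    refine Algebra.adjoin_le ?_
    intro y hy
    exact (Algebra.subset_adjoin hy : y ∈ Algebra.adjoin K {x})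
  exact h hc

/-- (a) **`hBA`**: the chart over `O` is contained in the chart over `K`. -/
theorem h16_chart_le (x : F) : (chart O x).toSubring ≤ (chart K x).toSubring := by
  intro z hz
  have hz' : IsIntegral (Algebra.adjoin O {x}) z := hz
  rw [h26_isIntegral_iff] at hz'
  obtain ⟨p, hp, hcoeff, hpz⟩ := hz'
  exact (h26_isIntegral_iff (Algebra.adjoin K {x}) z).mpr
    ⟨p, hp, fun i => h16_adjoin_mem x (hcoeff i), hpz⟩

/-- (d) **`hOB`**: the constants of `O` lie in the chart. -/
theorem h16_const_mem (x : F) (c : O) : algebraMap O F c ∈ (chart O x).toSubring :=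
  (chart O x).algebraMap_mem c

/-- The constants of `K` lie in the chart over `K`. -/
theorem h16_constK_mem (x : F) (c : K) : algebraMap K F c ∈ (chart K x).toSubring :=
  (chart K x).algebraMap_mem c

end Base

section AlgK

variable (K : Type*) {F : Type*} [Field K] [Field F] [Algebra K F]

/-- (c) The `K`-algebra structure of the chart over `K`, as a subring of `F`. -/
@[reducible] noncomputable def h16AlgK (x : F) : Algebra K (chart K x).toSubring :=
  ((algebraMap K F).codRestrict (chart K x).toSubring
    (fun c => (chart K x).algebraMap_mem c)).toAlgebra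

/-- (c) The tower `K → A → F`. -/
theorem h16_tower (x : F) :
    letI := h16AlgK K x
    IsScalarTower K (chart K x).toSubring F :=
  letI := h16AlgK K x
  IsScalarTower.of_algebraMap_eq fun _ => rfl

theorem h16_algebraMap_coe (x : F) (c : K) :
    letI := h16AlgK K x
    ((algebraMap K (chart K x).toSubring c : (chart K x).toSubring) : F) = algebraMap K F c :=
  rfl

end AlgK

section Dvr

variable {O K F : Type*} [CommRing O] [IsDomain O] [IsDiscreteValuationRing O]
  [Field K] [Algebra O K] [IsFractionRing O K]
  [Field F] [Algebra K F] [Algebra O F] [IsScalarTower O K F]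

/-- Every element of `K[x]` is scaled into `O[x]` by a power of the uniformiser. -/
theorem h16_scale_adjoin (π : O) (hπ : Irreducible π) (x : F) {c : F}
    (hc : c ∈ Algebra.adjoin K {x}) :
    ∃ k : ℕ, algebraMap O F π ^ k * c ∈ Algebra.adjoin O {x} := by
  rw [Algebra.adjoin_singleton_eq_range_aeval] at hc
  obtain ⟨r, rfl⟩ := hc
  obtain ⟨b, hb, hr⟩ := IsLocalization.integerNormalization_spec (nonZeroDivisors O) r
  have hb0 : b ≠ 0 := nonZeroDivisors.ne_zero hb
  obtain ⟨k, u, hu⟩ := IsDiscreteValuationRing.eq_unit_mul_pow_irreducible hb0 hπ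
  have hR : algebraMap O F b * aeval x r ∈ Algebra.adjoin O {x} := by
    have h1 : aeval x ((IsLocalization.integerNormalization (nonZeroDivisors O) r).map
        (algebraMap O K)) = algebraMap O F b * aeval x r := by
      rw [hr]
      simp only [Algebra.smul_def, map_mul]
      rw [show (algebraMap O K[X]) b = C (algebraMap O K b) from rfl, aeval_C,
        ← IsScalarTower.algebraMap_apply]
    rw [← h1, aeval_map_algebraMap, Algebra.adjoin_singleton_eq_range_aeval]
    exact ⟨_, rfl⟩
  refine ⟨k, ?_⟩
  have e : algebraMap O F π ^ k * aeval x r =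
      algebraMap O F ((u⁻¹ : Oˣ) : O) * (algebraMap O F b * aeval x r) := by
    rw [hu, map_mul, map_pow, ← mul_assoc, ← mul_assoc, ← map_mul, Units.inv_mul, map_one,
      one_mul]
  change algebraMap O F π ^ k * aeval x r ∈ Algebra.adjoin O {x}
  rw [e]
  exact Subalgebra.mul_mem _ (Subalgebra.algebraMap_mem _ _) hR

/-- (b) **`hA`**: `A = B[1/π]`, element form. -/
theorem h16_chart_scale (π : O) (hπ : Irreducible π) (x : F) :
    ∀ a ∈ (chart K x).toSubring, ∃ k : ℕ, algebraMap O F π ^ k * a ∈ (chart O x).toSubring := by
  intro a ha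
  have ha' : IsIntegral (Algebra.adjoin K {x}) a := ha
  rw [h26_isIntegral_iff] at ha'
  obtain ⟨p, hp, hcoeff, hpz⟩ := ha'
  have hint : IsIntegral ((Algebra.adjoin K {x}).restrictScalars O) a :=
    (h26_isIntegral_iff ((Algebra.adjoin K {x}).restrictScalars O) a).mpr
      ⟨p, hp, fun i => hcoeff i, hpz⟩
  obtain ⟨n, hn⟩ := h26_isIntegral_pow_mul (Algebra.adjoin O {x})
    ((Algebra.adjoin K {x}).restrictScalars O) (algebraMap O F π)
    (Subalgebra.algebraMap_mem _ π) (fun c hc => h16_scale_adjoin π hπ x hc) a hint
  exact ⟨n, hn⟩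

end Dvr

section Transfer

variable {O K F : Type*} [CommRing O] [IsDomain O]
  [Field K] [Algebra O K] [IsFractionRing O K]
  [Field F] [Algebra K F] [Algebra O F] [IsScalarTower O K F]

/-- Transcendence passes from `O` to its fraction field. -/
theorem h16_transcendental_K {x : F} (hx : Transcendental O x) : Transcendental K x := by
  intro h
  exact hx ((IsFractionRing.isAlgebraic_iff O K F).mpr h)

/-- `H26FinOver` passes from `O` to `K`. -/
theorem h16_finOver_K {x : F} (hfin : H26FinOver O x) : H26FinOver K x := by
  classical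
  obtain ⟨ws, hws⟩ := hfin
  refine ⟨ws, fun z => ?_⟩
  obtain ⟨a, ha, ha0, haz⟩ := hws z
  refine ⟨a, h16_adjoin_mem x ha, ha0, ?_⟩
  obtain ⟨c, -, hsum⟩ := Submodule.mem_span_finset.mp haz
  rw [← hsum]
  refine Submodule.sum_mem _ fun w hw => ?_
  have h2 : (c w : F) ∈ Algebra.adjoin K {x} := h16_adjoin_mem x (c w).2
  have := Submodule.smul_mem (Submodule.span (Algebra.adjoin K {x}) (ws : Set F))
    (⟨_, h2⟩ : Algebra.adjoin K {x}) (Submodule.subset_span (Finset.mem_coe.mpr hw))
  exact this

end Transfer

section Ded

variable (K : Type*) {F : Type*} [Field K] [Field F] [CharZero F] [Algebra K F]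

/-- (c) **The chart of the generic fibre is a Dedekind domain with fraction field `F`.** -/
theorem h16_ded_frac {x : F} (hx : Transcendental K x) (hfin : H26FinOver K x) :
    IsDedekindDomain (chart K x).toSubring ∧ IsFractionRing (chart K x).toSubring F := by
  classical
  obtain ⟨ws, hws⟩ := hfin
  letI : Algebra (FractionRing (Algebra.adjoin K {x})) F :=
    FractionRing.liftAlgebra (Algebra.adjoin K {x}) F
  haveI : IsScalarTower (Algebra.adjoin K {x}) (FractionRing (Algebra.adjoin K {x})) F :=
    FractionRing.isScalarTower_liftAlgebra (Algebra.adjoin K {x}) F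
  haveI : CharZero (FractionRing (Algebra.adjoin K {x})) :=
    (RingHom.charZero_iff (algebraMap (FractionRing (Algebra.adjoin K {x})) F).injective).mpr
      inferInstance
  haveI : FiniteDimensional (FractionRing (Algebra.adjoin K {x})) F := by
    refine Module.finite_def.mpr ⟨ws, ?_⟩
    rw [eq_top_iff]
    intro z _
    obtain ⟨a, ha, ha0, haz⟩ := hws z
    have hle := Submodule.span_le_restrictScalars (Algebra.adjoin K {x})
      (FractionRing (Algebra.adjoin K {x})) (ws : Set F)
    have h1 : a * z ∈ Submodule.span (FractionRing (Algebra.adjoin K {x})) (ws : Set F) :=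
      hle haz
    have h2 := Submodule.smul_mem _
      ((algebraMap (Algebra.adjoin K {x}) (FractionRing (Algebra.adjoin K {x})) ⟨a, ha⟩)⁻¹) h1
    have h3 : ((algebraMap (Algebra.adjoin K {x}) (FractionRing (Algebra.adjoin K {x}))
        ⟨a, ha⟩)⁻¹) • (a * z) = z := by
      rw [Algebra.smul_def, map_inv₀, ← IsScalarTower.algebraMap_apply]
      change a⁻¹ * (a * z) = z
      rw [← mul_assoc, inv_mul_cancel₀ ha0, one_mul]
    rw [h3] at h2
    exact h2
  haveI : IsPrincipalIdealRing (Algebra.adjoin K {x}) :=
    IsPrincipalIdealRing.of_surjective (h26_adjoinEquiv K hx).toRingEquiv.toRingHom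
      (h26_adjoinEquiv K hx).toRingEquiv.surjective
  letI : Algebra (Algebra.adjoin K {x}) (chart K x).toSubring :=
    ((algebraMap (Algebra.adjoin K {x}) F).codRestrict (chart K x).toSubring
      (fun c => h26_isIntegral_of_mem c.2)).toAlgebra
  haveI : IsScalarTower (Algebra.adjoin K {x}) (chart K x).toSubring F :=
    IsScalarTower.of_algebraMap_eq fun _ => rfl
  haveI : IsIntegralClosure (chart K x).toSubring (Algebra.adjoin K {x}) F :=
    ⟨Subtype.val_injective, fun {z} => ⟨fun h => ⟨⟨z, h⟩, rfl⟩, fun ⟨y, hy⟩ => hy ▸ y.2⟩⟩
  exact ⟨IsIntegralClosure.isDedekindDomain (Algebra.adjoin K {x})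
      (FractionRing (Algebra.adjoin K {x})) F (chart K x).toSubring,
    IsIntegralClosure.isFractionRing_of_finite_extension (Algebra.adjoin K {x})
      (FractionRing (Algebra.adjoin K {x})) F (chart K x).toSubring⟩

theorem h16_isDedekind {x : F} (hx : Transcendental K x) (hfin : H26FinOver K x) :
    IsDedekindDomain (chart K x).toSubring :=
  (h16_ded_frac K hx hfin).1

theorem h16_isFractionRing {x : F} (hx : Transcendental K x) (hfin : H26FinOver K x) :
    IsFractionRing (chart K x).toSubring F :=
  (h16_ded_frac K hx hfin).2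

end Ded

section All

variable {O K F : Type*} [CommRing O] [IsDomain O] [IsDiscreteValuationRing O]
  [Field K] [Algebra O K] [IsFractionRing O K]
  [Field F] [CharZero F] [Algebra K F] [Algebra O F] [IsScalarTower O K F]

/-- (e) **The chart of the model is a noetherian ring.** -/
theorem h16_isNoetherian {x : F} (hx : Transcendental O x) (hfin : H26FinOver O x) :
    IsNoetherianRing (chart O x).toSubring :=
  h26_isNoetherianRing_chart O hx hfin

/-- **(F-INST), abstract form**: all the instance inputs of `h11_LP_both` for
`B := (chart O x).toSubring`, `A := (chart K x).toSubring`. -/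
theorem h16_inst (π : O) (hπ : Irreducible π) {x : F} (hx : Transcendental O x)
    (hfin : H26FinOver O x) :
    letI := h16AlgK K x
    (chart O x).toSubring ≤ (chart K x).toSubring ∧
      IsNoetherianRing (chart O x).toSubring ∧
      IsDedekindDomain (chart K x).toSubring ∧
      IsFractionRing (chart K x).toSubring F ∧
      IsScalarTower K (chart K x).toSubring F ∧
      (∀ c : O, algebraMap O F c ∈ (chart O x).toSubring) ∧
      (∀ a ∈ (chart K x).toSubring,
        ∃ k : ℕ, algebraMap O F π ^ k * a ∈ (chart O x).toSubring) :=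
  ⟨h16_chart_le x, h16_isNoetherian hx hfin,
    h16_isDedekind K (h16_transcendental_K hx) (h16_finOver_K hfin),
    h16_isFractionRing K (h16_transcendental_K hx) (h16_finOver_K hfin),
    h16_tower K x, h16_const_mem x, h16_chart_scale π hπ x⟩

end All

end Fermat.Agent.S34x.Dict.H16
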