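import Mathlib
import Fermat.Prelude.Def_AlgebraicCurve_DivisorClassGroup
import Fermat.Agent.S24.H2_PlacesDedekind
import Fermat.Agent.S24.H15_Kaehler
import Fermat.Agent.S34x.Node.H23_NodeChart
import Fermat.Agent.S34x.Loc.H26_InLocPrimes

/-!
# S34 (W10), stage (F) DICT + (LP) assembly at a crossing point (helper11)

`O` a discrete valuation ring with uniformiser `π` and fraction field `K`, `F ⊇ K` a field,
`B ≤ A` subrings of `F` with `A = B[1/π]` a Dedekind domain with fraction field `F` containing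
`K` (the chart of the model and the chart of the generic fibre), `𝔫` a prime of `B` over `π`
of node shape (the hypotheses of helper23's `h23_node_lp`).

* `h11_ord_locEq` : the valuations of a local equation `d` of a prime `𝔓` of `A` through `𝔫`
  at all primes of `A` through `𝔫` (`exp (-1)` at `𝔓`, `1` elsewhere);
* `h11_section` : a `K`-rational prime `𝔓` of `A` through `𝔫` defines a section
  `ev : B → O` centred at `𝔫`, with `(REG_P)`;
* `h11_LP_core` : local equations at the finitely many primes of `A` through `𝔫` in the support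
  of `f`, with multiplicities divisible by `m`, give `(LP)` at `𝔫`;
* `h11_LP_both` : `hLP` of `h26_ss_abs` / `h26_ss_pow` at `𝔫` for every `f` whose divisor is
  divisible by `m` and whose zeros and poles are `K`-rational.
-/

set_option autoImplicit false
set_option linter.unusedSectionVars false
set_option linter.unusedVariables false
set_option linter.style.haveILetI false
set_option maxHeartbeats 1000000

open IsDedekindDomain AlgebraicCurve WithZero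

namespace Fermat.Agent.S34x.Dict.H11

open Fermat.Agent.S24.Alg Fermat.Agent.S34x.Loc.H26

section Val

variable {F : Type*} [Field F] (B A : Subring F) (hBA : B ≤ A)
  [IsDedekindDomain A] [IsFractionRing A F]

/-- `𝔔` passes through `𝔫`: `𝔔 ∩ B ⊆ 𝔫`. -/
def Through (hBA : B ≤ A) (𝔫 : Ideal B) (𝔔 : Ideal A) : Prop :=
  ∀ s : B, (⟨(s : F), hBA s.2⟩ : A) ∈ 𝔔 → s ∈ 𝔫

variable {B A}

theorem h11_val_le_one (𝔔 : HeightOneSpectrum A) {a : F} (ha : a ∈ A) :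
    𝔔.valuation F a ≤ 1 :=
  𝔔.valuation_le_one (⟨a, ha⟩ : A)

theorem h11_val_lt_one_iff (𝔔 : HeightOneSpectrum A) {a : F} (ha : a ∈ A) :
    𝔔.valuation F a < 1 ↔ (⟨a, ha⟩ : A) ∈ 𝔔.asIdeal :=
  𝔔.valuation_lt_one_iff_mem (⟨a, ha⟩ : A)

theorem h11_val_eq_one_of_notMem (𝔔 : HeightOneSpectrum A) {a : F} (ha : a ∈ A)
    (h : (⟨a, ha⟩ : A) ∉ 𝔔.asIdeal) : 𝔔.valuation F a = 1 :=
  (𝔔.valuation_eq_one_iff_notMem (K := F) (r := (⟨a, ha⟩ : A))).mpr h

/-- an element of `B` outside `𝔫` is a unit at every prime through `𝔫`. -/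
theorem h11_val_compl (hBA : B ≤ A) (𝔫 : Ideal B) (𝔔 : HeightOneSpectrum A)
    (hth : Through B A hBA 𝔫 𝔔.asIdeal) {s : B} (hs : s ∉ 𝔫) :
    𝔔.valuation F (s : F) = 1 :=
  h11_val_eq_one_of_notMem 𝔔 (hBA s.2) (fun h => hs (hth s h))

/-- a unit of `A` has valuation one. -/
theorem h11_val_unit (𝔔 : HeightOneSpectrum A) {a b : F} (ha : a ∈ A) (hb : b ∈ A)
    (hab : a * b = 1) : 𝔔.valuation F a = 1 := by
  have h1 := h11_val_le_one 𝔔 ha
  have h2 := h11_val_le_one 𝔔 hb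
  have h3 : 𝔔.valuation F a * 𝔔.valuation F b = 1 := by
    rw [← map_mul, hab, map_one]
  apply le_antisymm h1
  by_contra hlt
  rw [not_le] at hlt
  have h4 : 𝔔.valuation F a * 𝔔.valuation F b < 1 := by
    calc 𝔔.valuation F a * 𝔔.valuation F b ≤ 𝔔.valuation F a * 1 :=
          mul_le_mul' le_rfl h2
      _ = 𝔔.valuation F a := mul_one _
      _ < 1 := hlt
  rw [h3] at h4
  exact lt_irrefl _ h4

/-- **The valuations of a local equation** of `𝔓` at the primes through `𝔫`. -/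
theorem h11_ord_locEq (hBA : B ≤ A) (π : F) (hπA : π ∈ A) (π' : F) (hπ'A : π' ∈ A)
    (hππ' : π * π' = 1)
    (hA : ∀ a ∈ A, ∃ k : ℕ, π ^ k * a ∈ B)
    (𝔫 : Ideal B) (𝔓 : HeightOneSpectrum A)
    (d : B) (hd𝔓 : (⟨(d : F), hBA d.2⟩ : A) ∈ 𝔓.asIdeal) (i : ℕ)
    (hd : ∀ z : B, (⟨(z : F), hBA z.2⟩ : A) ∈ 𝔓.asIdeal →
      ∃ s : B, s ∉ 𝔫 ∧ ∃ g : B, (s : F) * (π ^ i * (z : F)) = (d : F) * (g : F))
    (𝔔 : HeightOneSpectrum A) (hth : Through B A hBA 𝔫 𝔔.asIdeal) :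
    (𝔔 = 𝔓 → 𝔔.valuation F (d : F) = exp (-1 : ℤ)) ∧
      (𝔔 ≠ 𝔓 → 𝔔.valuation F (d : F) = 1) := by
  have hπ1 : 𝔔.valuation F π = 1 := h11_val_unit 𝔔 hπA hπ'A hππ'
  have hπ0 : π ≠ 0 := left_ne_zero_of_mul_eq_one hππ'
  -- the key inequality
  have key : ∀ z : B, (⟨(z : F), hBA z.2⟩ : A) ∈ 𝔓.asIdeal →
      𝔔.valuation F (z : F) ≤ 𝔔.valuation F (d : F) := by
    intro z hz
    obtain ⟨s, hs, g, hsg⟩ := hd z hz
    have h1 := congrArg (𝔔.valuation F) hsg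
    rw [map_mul, map_mul, map_pow, hπ1, one_pow, one_mul, h11_val_compl hBA 𝔫 𝔔 hth hs,
      one_mul, map_mul] at h1
    rw [h1]
    calc 𝔔.valuation F (d : F) * 𝔔.valuation F (g : F) ≤ 𝔔.valuation F (d : F) * 1 :=
          mul_le_mul' le_rfl (h11_val_le_one 𝔔 (hBA g.2))
      _ = 𝔔.valuation F (d : F) := mul_one _
  -- bring an element of `A` into `B` without changing its valuation
  have hscale : ∀ a : A, a ∈ 𝔓.asIdeal → ∃ z : B, (⟨(z : F), hBA z.2⟩ : A) ∈ 𝔓.asIdeal ∧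
      𝔔.valuation F (z : F) = 𝔔.valuation F (a : F) := by
    intro a ha
    obtain ⟨k, hk⟩ := hA a a.2
    refine ⟨⟨π ^ k * a, hk⟩, ?_, ?_⟩
    · have e : (⟨π ^ k * (a : F), hBA hk⟩ : A) = (⟨π, hπA⟩ : A) ^ k * a := by
        apply Subtype.ext
        push_cast
        rfl
      show (⟨π ^ k * (a : F), hBA hk⟩ : A) ∈ 𝔓.asIdeal
      rw [e]
      exact Ideal.mul_mem_left _ _ ha
    · show 𝔔.valuation F (π ^ k * (a : F)) = _
      rw [map_mul, map_pow, hπ1, one_pow, one_mul]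
  have hdA : 𝔔.valuation F (d : F) ≤ 1 := h11_val_le_one 𝔔 (hBA d.2)
  constructor
  · rintro rfl
    have hlt : 𝔔.valuation F (d : F) < 1 := (h11_val_lt_one_iff 𝔔 (hBA d.2)).mpr hd𝔓
    obtain ⟨ϖ, hϖ⟩ := 𝔔.valuation_exists_uniformizer' F
    have hϖ' : 𝔔.valuation F (ϖ : F) = exp (-1 : ℤ) := hϖ
    have hϖmem : ϖ ∈ 𝔔.asIdeal := by
      rw [← 𝔔.valuation_lt_one_iff_mem (K := F)]
      show 𝔔.valuation F (ϖ : F) < 1
      rw [hϖ', ← exp_zero, exp_lt_exp]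
      norm_num
    obtain ⟨z, hz, hzv⟩ := hscale ϖ hϖmem
    have h1 := key z hz
    rw [hzv, hϖ'] at h1
    exact le_antisymm (le_exp_neg_one_of_lt_one hlt) h1
  · intro hne
    have hnle : ¬ 𝔓.asIdeal ≤ 𝔔.asIdeal := by
      intro hle
      apply hne
      have hmax : 𝔓.asIdeal.IsMaximal := 𝔓.isMaximal
      have := hmax.eq_of_le 𝔔.isPrime.ne_top hle
      exact (HeightOneSpectrum.ext this).symm
    obtain ⟨a, ha𝔓, ha𝔔⟩ := SetLike.not_le_iff_exists.mp hnle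
    obtain ⟨z, hz, hzv⟩ := hscale a ha𝔓
    have h1 := key z hz
    have h2 : 𝔔.valuation F (a : F) = 1 :=
      (𝔔.valuation_eq_one_iff_notMem (K := F) (r := a)).mpr ha𝔔
    rw [hzv, h2] at h1
    exact le_antisymm hdA h1

end Val

section Pow

variable {F : Type*} [Field F]

/-- a uniform power of `π` brings finitely many elements of `A = B[1/π]` into `B`. -/
theorem h11_exists_pow_finset (B A : Subring F) (π : F) (hπB : π ∈ B)
    (hA : ∀ a ∈ A, ∃ k : ℕ, π ^ k * a ∈ B) (S : Finset F) (hS : ∀ a ∈ S, a ∈ A) :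
    ∃ k : ℕ, ∀ a ∈ S, π ^ k * a ∈ B := by
  classical
  induction S using Finset.induction_on with
  | empty => exact ⟨0, by simp⟩
  | insert a S ha ih =>
    obtain ⟨k, hk⟩ := ih (fun b hb => hS b (Finset.mem_insert_of_mem hb))
    obtain ⟨l, hl⟩ := hA a (hS a (Finset.mem_insert_self a S))
    refine ⟨k + l, ?_⟩
    intro b hb
    rcases Finset.mem_insert.mp hb with rfl | hb
    · have e : π ^ (k + l) * b = π ^ k * (π ^ l * b) := by ring
      rw [e]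
      exact B.mul_mem (B.pow_mem hπB k) hl
    · have e : π ^ (k + l) * b = π ^ l * (π ^ k * b) := by ring
      rw [e]
      exact B.mul_mem (B.pow_mem hπB l) (hk b hb)

end Pow

section Section

variable {O K F : Type*} [CommRing O] [IsDomain O] [IsDiscreteValuationRing O]
  [Field K] [Algebra O K] [IsFractionRing O K]
  [Field F] [Algebra K F] [Algebra O F] [IsScalarTower O K F]

/-- an element of `K` is in `O` or its inverse is in `π O`. -/
theorem h11_dvr_dichotomy (π : O) (hπ : Irreducible π) (c : K) :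
    (∃ o : O, algebraMap O K o = c) ∨ (∃ o : O, c * algebraMap O K (π * o) = 1) := by
  by_cases hc0 : c = 0
  · exact Or.inl ⟨0, by rw [map_zero, hc0]⟩
  rcases ValuationRing.isInteger_or_isInteger O c with ⟨o, ho⟩ | ⟨o, ho⟩
  · exact Or.inl ⟨o, ho⟩
  · by_cases hu : IsUnit o
    · left
      obtain ⟨u, rfl⟩ := hu
      refine ⟨((u⁻¹ : Oˣ) : O), ?_⟩
      have h1 : algebraMap O K ((u⁻¹ : Oˣ) : O) * algebraMap O K (u : O) = 1 := by
        rw [← map_mul, Units.inv_mul, map_one]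
      rw [ho] at h1
      field_simp at h1
      exact h1
    · right
      have hmem : o ∈ IsLocalRing.maximalIdeal O := (IsLocalRing.mem_maximalIdeal o).mpr hu
      rw [hπ.maximalIdeal_eq, Ideal.mem_span_singleton'] at hmem
      obtain ⟨o', ho'⟩ := hmem
      refine ⟨o', ?_⟩
      rw [mul_comm π o', ho', ho]
      exact mul_inv_cancel₀ hc0


/-- **The `O`-section of a `K`-rational prime through `𝔫`**, with `(REG_P)`. -/
theorem h11_section
    (B A : Subring F) (hBA : B ≤ A) [IsNoetherianRing B]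
    [IsDedekindDomain A] [IsFractionRing A F] [Algebra K A] [IsScalarTower K A F]
    (π : O) (hπ : Irreducible π)
    (hOB : ∀ c : O, algebraMap O F c ∈ B)
    (hA : ∀ a ∈ A, ∃ k : ℕ, algebraMap O F π ^ k * a ∈ B)
    (𝔫 : Ideal B) [h𝔫 : 𝔫.IsPrime] (hπn : (⟨algebraMap O F π, hOB π⟩ : B) ∈ 𝔫)
    (𝔓 : HeightOneSpectrum A) (hth : Through B A hBA 𝔫 𝔓.asIdeal)
    (hrat : ∀ a : A, ∃ c : K, a - algebraMap K A c ∈ 𝔓.asIdeal) :
    ∃ ev : B →+* O, (∀ o : O, ev ⟨algebraMap O F o, hOB o⟩ = o) ∧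
      (∀ b : B, ev b = 0 ↔ (⟨(b : F), hBA b.2⟩ : A) ∈ 𝔓.asIdeal) ∧
      (∀ b : B, b ∈ 𝔫 ↔ π ∣ ev b) ∧
      ∃ ϖ r : B, ev ϖ = 0 ∧ ev r ≠ 0 ∧ ∀ z : B, ev z = 0 → ∃ g : B, r * z = ϖ * g := by
  classical
  let ιB : B →+* A := Subring.inclusion hBA
  have hιB : ∀ b : B, ιB b = (⟨(b : F), hBA b.2⟩ : A) := fun b => rfl
  let q : A →+* A ⧸ 𝔓.asIdeal := Ideal.Quotient.mk 𝔓.asIdeal
  let oA : O →+* A := (algebraMap K A).comp (algebraMap O K)
  have hoA : ∀ o : O, ((oA o : A) : F) = algebraMap O F o := by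
    intro o
    have h1 := IsScalarTower.algebraMap_apply K A F (algebraMap O K o)
    rw [IsScalarTower.algebraMap_apply O K F o, h1]
    rfl
  let oB : O →+* B := (algebraMap O F).codRestrict B hOB
  have hoB : ∀ o : O, oB o = (⟨algebraMap O F o, hOB o⟩ : B) := fun o => rfl
  have hιo : ∀ o : O, ιB (oB o) = oA o := fun o => Subtype.ext (hoA o).symm
  let φ : B →+* A ⧸ 𝔓.asIdeal := q.comp ιB
  let ψ : O →+* A ⧸ 𝔓.asIdeal := q.comp oA
  have hKunit : ∀ c : K, c ≠ 0 → algebraMap K A c ∉ 𝔓.asIdeal := by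
    intro c hc hmem
    have h1 : algebraMap K A c * algebraMap K A c⁻¹ = 1 := by
      rw [← map_mul, mul_inv_cancel₀ hc, map_one]
    have h2 : (1 : A) ∈ 𝔓.asIdeal := h1 ▸ Ideal.mul_mem_right _ _ hmem
    exact 𝔓.isPrime.ne_top ((Ideal.eq_top_iff_one _).mpr h2)
  have hψinj : Function.Injective ψ := by
    rw [injective_iff_map_eq_zero]
    intro o ho
    by_contra h0
    have h1 : oA o ∈ 𝔓.asIdeal := Ideal.Quotient.eq_zero_iff_mem.mp ho
    refine hKunit (algebraMap O K o) ?_ h1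
    rwa [Ne, map_eq_zero_iff _ (IsFractionRing.injective O K)]
  have hπB𝔫 : oB π ∈ 𝔫 := hπn
  have hone : (1 : B) ∉ 𝔫 := fun h => h𝔫.ne_top ((Ideal.eq_top_iff_one _).mpr h)
  have hthι : ∀ t : B, ιB t ∈ 𝔓.asIdeal → t ∈ 𝔫 := fun t ht => hth t ht
  have hrange : ∀ b : B, ∃ o : O, φ b = ψ o := by
    intro b
    obtain ⟨c, hc⟩ := hrat (ιB b)
    rcases h11_dvr_dichotomy π hπ c with ⟨o, rfl⟩ | ⟨o, ho⟩
    · exact ⟨o, Ideal.Quotient.eq.mpr hc⟩
    · exfalso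
      have h0 : algebraMap K A c * oA (π * o) = 1 := by
        show algebraMap K A c * algebraMap K A (algebraMap O K (π * o)) = 1
        rw [← map_mul, ho, map_one]
      have h1 : ιB b * oA (π * o) - 1 ∈ 𝔓.asIdeal := by
        have e : ιB b * oA (π * o) - 1 = (ιB b - algebraMap K A c) * oA (π * o) := by
          rw [sub_mul, h0]
        rw [e]
        exact Ideal.mul_mem_right _ _ hc
      have ht : ιB (b * oB (π * o) - 1) = ιB b * oA (π * o) - 1 := by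
        rw [map_sub, map_mul, map_one, hιo]
      have htn : b * oB (π * o) - 1 ∈ 𝔫 := hthι _ (by rw [ht]; exact h1)
      have hπo : oB (π * o) ∈ 𝔫 := by
        rw [map_mul]
        exact Ideal.mul_mem_right _ _ hπB𝔫
      have h2 := Ideal.sub_mem _ (Ideal.mul_mem_left _ b hπo) htn
      rw [sub_sub_cancel] at h2
      exact hone h2
  let e : O ≃+* ψ.range := RingEquiv.ofBijective ψ.rangeRestrict
    ⟨fun a b hab => hψinj (by
        have := congrArg Subtype.val hab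
        simpa using this), ψ.rangeRestrict_surjective⟩
  let φ' : B →+* ψ.range := φ.codRestrict ψ.range (fun b => by
    obtain ⟨o, ho⟩ := hrange b
    exact ⟨o, ho.symm⟩)
  let ev : B →+* O := (e.symm : ψ.range →+* O).comp φ'
  have hev : ∀ b : B, ψ (ev b) = φ b := by
    intro b
    have h1 := e.apply_symm_apply (φ' b)
    exact congrArg Subtype.val h1
  have hev0 : ∀ b : B, ev b = 0 ↔ ιB b ∈ 𝔓.asIdeal := by
    intro b
    constructor
    · intro h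
      have h1 := hev b
      rw [h, map_zero] at h1
      exact Ideal.Quotient.eq_zero_iff_mem.mp h1.symm
    · intro h
      apply hψinj
      rw [hev b, map_zero]
      exact Ideal.Quotient.eq_zero_iff_mem.mpr h
  have hevO : ∀ o : O, ev (oB o) = o := by
    intro o
    apply hψinj
    rw [hev]
    show q (ιB (oB o)) = q (oA o)
    rw [hιo]
  have hevn : ∀ b : B, ev b = 0 → b ∈ 𝔫 := fun b hb => hthι b ((hev0 b).mp hb)
  refine ⟨ev, hevO, fun b => hev0 b, ?_, ?_⟩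
  · intro b
    constructor
    · intro hb
      by_contra hnd
      have hu : IsUnit (ev b) := by
        by_contra hnu
        have hmem : ev b ∈ IsLocalRing.maximalIdeal O := (IsLocalRing.mem_maximalIdeal _).mpr hnu
        rw [hπ.maximalIdeal_eq, Ideal.mem_span_singleton] at hmem
        exact hnd hmem
      obtain ⟨u, hu⟩ := hu
      have h1 : ev (b * oB ((u⁻¹ : Oˣ) : O) - 1) = 0 := by
        rw [map_sub, map_mul, map_one, hevO, ← hu, Units.mul_inv, sub_self]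
      have h2 := hevn _ h1
      have h3 := Ideal.sub_mem _ (Ideal.mul_mem_right (oB ((u⁻¹ : Oˣ) : O)) _ hb) h2
      rw [sub_sub_cancel] at h3
      exact hone h3
    · rintro ⟨o, ho⟩
      have h1 : ev (b - oB π * oB o) = 0 := by
        rw [map_sub, map_mul, hevO, hevO, ho, sub_self]
      have h2 := hevn _ h1
      have h3 := Ideal.add_mem _ h2 (Ideal.mul_mem_right (oB o) _ hπB𝔫)
      rw [sub_add_cancel] at h3
      exact h3
  · -- (REG_P)
    have hlt : 𝔓.asIdeal ^ 2 < 𝔓.asIdeal := by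
      rw [← Ideal.dvdNotUnit_iff_lt]
      exact ⟨𝔓.ne_bot, 𝔓.asIdeal, Ideal.isUnit_iff.not.mpr 𝔓.isPrime.ne_top, sq 𝔓.asIdeal⟩
    obtain ⟨ϖ₀, hϖmem, hϖnot⟩ := SetLike.exists_of_lt hlt
    obtain ⟨J, hJ⟩ := Ideal.dvd_span_singleton.mpr hϖmem
    have hJ' : ¬ J ≤ 𝔓.asIdeal := by
      intro hle
      apply hϖnot
      have h1 : Ideal.span {ϖ₀} ≤ 𝔓.asIdeal ^ 2 := by
        rw [hJ, sq]
        exact Ideal.mul_mono_right hle
      exact h1 (Ideal.mem_span_singleton_self ϖ₀)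
    obtain ⟨r₀, hr₀J, hr₀𝔓⟩ := SetLike.not_le_iff_exists.mp hJ'
    have hdivA : ∀ a : A, a ∈ 𝔓.asIdeal → ∃ n : A, a * r₀ = ϖ₀ * n := by
      intro a ha
      have h1 : a * r₀ ∈ Ideal.span {ϖ₀} := by
        rw [hJ]
        exact Ideal.mul_mem_mul ha hr₀J
      obtain ⟨n, hn⟩ := Ideal.mem_span_singleton'.mp h1
      exact ⟨n, by rw [← hn, mul_comm]⟩
    have hdivB : ∀ z : B, ∃ n : A, ev z = 0 → ιB z * r₀ = ϖ₀ * n := by
      intro z
      by_cases hz : ev z = 0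
      · obtain ⟨n, hn⟩ := hdivA (ιB z) ((hev0 z).mp hz)
        exact ⟨n, fun _ => hn⟩
      · exact ⟨0, fun h => absurd h hz⟩
    choose n hn using hdivB
    obtain ⟨S, hS⟩ := (isNoetherianRing_iff_ideal_fg B).mp inferInstance (RingHom.ker ev)
    set πF : F := algebraMap O F π with hπF
    have hπFB : πF ∈ B := hOB π
    obtain ⟨k1, hk1⟩ := hA ϖ₀ ϖ₀.2
    obtain ⟨k2, hk2⟩ := hA r₀ r₀.2
    obtain ⟨k3, hk3⟩ := h11_exists_pow_finset B A πF hπFB hA (S.image (fun z => ((n z : A) : F)))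
      (by
        intro a ha
        obtain ⟨z, -, rfl⟩ := Finset.mem_image.mp ha
        exact (n z).2)
    -- `π` is a unit of `A`
    have hπ0 : π ≠ 0 := hπ.ne_zero
    have hπA : ιB (oB π) ∉ 𝔓.asIdeal := by
      rw [hιo]
      refine hKunit (algebraMap O K π) ?_
      rwa [Ne, map_eq_zero_iff _ (IsFractionRing.injective O K)]
    have hevπ : ev (oB π) ≠ 0 := fun h => hπA ((hev0 _).mp h)
    let ϖ : B := ⟨πF ^ k1 * ϖ₀, hk1⟩
    let r : B := ⟨πF ^ (k1 + k3) * (πF ^ k2 * r₀), B.mul_mem (B.pow_mem hπFB _) hk2⟩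
    have hιϖ : ιB ϖ = ιB (oB π) ^ k1 * ϖ₀ := Subtype.ext (by
      show πF ^ k1 * (ϖ₀ : F) = _
      push_cast
      rfl)
    have hιr : ιB r = ιB (oB π) ^ (k1 + k3 + k2) * r₀ := Subtype.ext (by
      show πF ^ (k1 + k3) * (πF ^ k2 * (r₀ : F)) = _
      push_cast
      rw [pow_add _ (k1 + k3) k2, mul_assoc]
      rfl)
    refine ⟨ϖ, r, ?_, ?_, ?_⟩
    · rw [hev0]
      show ιB ϖ ∈ _
      rw [hιϖ]
      exact Ideal.mul_mem_left _ _ hϖmem
    · intro h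
      rw [hev0] at h
      have h' : ιB r ∈ 𝔓.asIdeal := h
      rw [hιr] at h'
      rcases 𝔓.isPrime.mem_or_mem h' with h1 | h1
      · exact hπA (𝔓.isPrime.mem_of_pow_mem _ h1)
      · exact hr₀𝔓 h1
    · intro z hz
      have hzker : z ∈ RingHom.ker ev := hz
      rw [← hS] at hzker
      refine Submodule.span_induction (p := fun z _ => ∃ g : B, r * z = ϖ * g)
        ?_ ?_ ?_ ?_ hzker
      · intro z hzS
        have hzev : ev z = 0 := by
          have : z ∈ RingHom.ker ev := hS ▸ Ideal.subset_span hzS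
          exact this
        have h1 := hn z hzev
        have h2 : πF ^ k3 * ((n z : A) : F) ∈ B :=
          hk3 _ (Finset.mem_image.mpr ⟨z, hzS, rfl⟩)
        refine ⟨⟨πF ^ k2 * (πF ^ k3 * ((n z : A) : F)), B.mul_mem (B.pow_mem hπFB _) h2⟩, ?_⟩
        apply Subtype.ext
        have h3 : (z : F) * (r₀ : F) = (ϖ₀ : F) * ((n z : A) : F) := by
          have h4 := congrArg (Subtype.val) h1
          have h5 : ((ιB z : A) : F) = (z : F) := rfl
          rw [Subring.coe_mul, Subring.coe_mul, h5] at h4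
          exact h4
        show πF ^ (k1 + k3) * (πF ^ k2 * (r₀ : F)) * (z : F) =
          πF ^ k1 * (ϖ₀ : F) * (πF ^ k2 * (πF ^ k3 * ((n z : A) : F)))
        rw [pow_add]
        linear_combination (πF ^ k1 * πF ^ k3 * πF ^ k2) * h3
      · exact ⟨0, by simp⟩
      · rintro a b - - ⟨g1, h1⟩ ⟨g2, h2⟩
        exact ⟨g1 + g2, by rw [mul_add, mul_add, h1, h2]⟩
      · rintro c a - ⟨g, h⟩
        refine ⟨c * g, ?_⟩
        rw [smul_eq_mul]
        linear_combination c * h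

end Section


section Core

variable {F : Type*} [Field F]

/-- **The assembly**: local equations at the finitely many primes through `𝔫` where `f` has a
zero or a pole give `(LP)` at `𝔫`. -/
theorem h11_LP_core (B A : Subring F) (hBA : B ≤ A)
    [IsDedekindDomain A] [IsFractionRing A F]
    (π : F) (hπA : π ∈ A) (π' : F) (hπ'A : π' ∈ A) (hππ' : π * π' = 1)
    (hA : ∀ a ∈ A, ∃ k : ℕ, π ^ k * a ∈ B)
    (𝔫 : Ideal B) [h𝔫 : 𝔫.IsPrime] (m : ℕ) (f : F) (hf0 : f ≠ 0)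
    (hloc : ∀ 𝔓 : HeightOneSpectrum A, Through B A hBA 𝔫 𝔓.asIdeal → 𝔓.valuation F f ≠ 1 →
      ∃ e : ℤ, 𝔓.valuation F f = exp (-((m : ℤ) * e)) ∧
        ∃ (d : B) (i : ℕ), (⟨(d : F), hBA d.2⟩ : A) ∈ 𝔓.asIdeal ∧
          ∀ z : B, (⟨(z : F), hBA z.2⟩ : A) ∈ 𝔓.asIdeal →
            ∃ s : B, s ∉ 𝔫 ∧ ∃ g : B, (s : F) * (π ^ i * (z : F)) = (d : F) * (g : F)) :
    ∃ d w₀ : F, d ≠ 0 ∧ w₀ ≠ 0 ∧ f = d ^ m * w₀ ∧ InLoc B π 𝔫 w₀ ∧ InLoc B π 𝔫 w₀⁻¹ := by
  classical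
  have hfin1 := HeightOneSpectrum.Support.finite A f
  have hfin2 := HeightOneSpectrum.Support.finite A f⁻¹
  -- the data at every prime
  have hdata : ∀ 𝔓 : HeightOneSpectrum A, ∃ (e : ℤ) (d : F),
      Through B A hBA 𝔫 𝔓.asIdeal → 𝔓.valuation F f ≠ 1 →
        (𝔓.valuation F f = exp (-((m : ℤ) * e)) ∧ d ≠ 0 ∧
          ∀ 𝔔 : HeightOneSpectrum A, Through B A hBA 𝔫 𝔔.asIdeal →
            (𝔔 = 𝔓 → 𝔔.valuation F d = exp (-1 : ℤ)) ∧ (𝔔 ≠ 𝔓 → 𝔔.valuation F d = 1)) := by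
    intro 𝔓
    by_cases h1 : Through B A hBA 𝔫 𝔓.asIdeal ∧ 𝔓.valuation F f ≠ 1
    · obtain ⟨e, he, d, i, hd𝔓, hd⟩ := hloc 𝔓 h1.1 h1.2
      refine ⟨e, (d : F), fun _ _ => ⟨he, ?_, ?_⟩⟩
      · intro h0
        have h2 := (h11_ord_locEq hBA π hπA π' hπ'A hππ' hA 𝔫 𝔓 d hd𝔓 i hd 𝔓 h1.1).1 rfl
        rw [h0, map_zero] at h2
        exact (exp_ne_zero (M := ℤ)).symm h2
      · intro 𝔔 h𝔔
        exact h11_ord_locEq hBA π hπA π' hπ'A hππ' hA 𝔫 𝔓 d hd𝔓 i hd 𝔔 h𝔔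
    · exact ⟨0, 1, fun h2 h3 => absurd ⟨h2, h3⟩ h1⟩
  choose e d hed using hdata
  -- the finite set of primes through `𝔫` in the support of `f`
  let T : Finset (HeightOneSpectrum A) :=
    (hfin1.toFinset ∪ hfin2.toFinset).filter
      (fun 𝔓 => Through B A hBA 𝔫 𝔓.asIdeal ∧ 𝔓.valuation F f ≠ 1)
  have hvf0 : ∀ 𝔓 : HeightOneSpectrum A, 𝔓.valuation F f ≠ 0 := fun 𝔓 =>
    (Valuation.ne_zero_iff _).mpr hf0
  have hT : ∀ 𝔓 : HeightOneSpectrum A,
      𝔓 ∈ T ↔ Through B A hBA 𝔫 𝔓.asIdeal ∧ 𝔓.valuation F f ≠ 1 := by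
    intro 𝔓
    simp only [T, Finset.mem_filter, Finset.mem_union, Set.Finite.mem_toFinset]
    constructor
    · exact fun h => h.2
    · intro h
      refine ⟨?_, h⟩
      rcases lt_or_gt_of_ne h.2 with hlt | hgt
      · right
        show 1 < 𝔓.valuation F f⁻¹
        rw [map_inv₀]
        exact (one_lt_inv₀ (zero_lt_iff.mpr (hvf0 𝔓))).mpr hlt
      · left
        exact hgt
  set D : F := ∏ 𝔓 ∈ T, d 𝔓 ^ e 𝔓 with hD
  have hd0 : ∀ 𝔓 ∈ T, d 𝔓 ≠ 0 := fun 𝔓 h𝔓 =>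
    (hed 𝔓 ((hT 𝔓).mp h𝔓).1 ((hT 𝔓).mp h𝔓).2).2.1
  have hD0 : D ≠ 0 := by
    rw [hD, Finset.prod_ne_zero_iff]
    intro 𝔓 h𝔓
    exact zpow_ne_zero _ (hd0 𝔓 h𝔓)
  -- valuations of `D`
  have hvD : ∀ 𝔔 : HeightOneSpectrum A, Through B A hBA 𝔫 𝔔.asIdeal →
      (𝔔 ∈ T → 𝔔.valuation F D = exp (-(e 𝔔))) ∧ (𝔔 ∉ T → 𝔔.valuation F D = 1) := by
    intro 𝔔 h𝔔
    have hfac : ∀ 𝔓 ∈ T, 𝔓 ≠ 𝔔 → 𝔔.valuation F (d 𝔓 ^ e 𝔓) = 1 := by
      intro 𝔓 h𝔓 hne
      have h1 := ((hed 𝔓 ((hT 𝔓).mp h𝔓).1 ((hT 𝔓).mp h𝔓).2).2.2 𝔔 h𝔔).2 (Ne.symm hne)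
      rw [map_zpow₀, h1, one_zpow]
    constructor
    · intro hmem
      rw [hD, map_prod, Finset.prod_eq_single_of_mem 𝔔 hmem (fun 𝔓 h𝔓 hne => hfac 𝔓 h𝔓 hne)]
      have h1 := ((hed 𝔔 ((hT 𝔔).mp hmem).1 ((hT 𝔔).mp hmem).2).2.2 𝔔 h𝔔).1 rfl
      rw [map_zpow₀, h1, ← exp_zsmul]
      congr 1
      simp
    · intro hmem
      rw [hD, map_prod]
      apply Finset.prod_eq_one
      intro 𝔓 h𝔓
      apply hfac 𝔓 h𝔓
      rintro rfl
      exact hmem h𝔓
  set w₀ : F := f / D ^ m with hw₀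
  have hw0 : w₀ ≠ 0 := div_ne_zero hf0 (pow_ne_zero _ hD0)
  have hvw : ∀ 𝔔 : HeightOneSpectrum A, Through B A hBA 𝔫 𝔔.asIdeal →
      𝔔.valuation F w₀ = 1 := by
    intro 𝔔 h𝔔
    rw [hw₀, map_div₀, map_pow]
    by_cases hmem : 𝔔 ∈ T
    · rw [(hvD 𝔔 h𝔔).1 hmem, (hed 𝔔 ((hT 𝔔).mp hmem).1 ((hT 𝔔).mp hmem).2).1, ← exp_nsmul]
      have e1 : m • (-(e 𝔔)) = -((m : ℤ) * e 𝔔) := by
        rw [nsmul_eq_mul]
        ring
      rw [e1]
      exact div_self (exp_ne_zero (M := ℤ))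
    · rw [(hvD 𝔔 h𝔔).2 hmem, one_pow, div_one]
      by_contra h1
      exact hmem ((hT 𝔔).mpr ⟨h𝔔, h1⟩)
  -- regularity at every prime through `𝔫`
  have hreg : ∀ g : F, g ≠ 0 →
      (∀ 𝔔 : HeightOneSpectrum A, Through B A hBA 𝔫 𝔔.asIdeal → 𝔔.valuation F g = 1) →
      InLoc B π 𝔫 g := by
    intro g hg0 hg
    apply h26_inLoc_of_primes B A hBA π hA 𝔫 g
    intro Q hQ hQth
    by_cases hQ0 : Q = ⊥
    · obtain ⟨a, b, hb, hab⟩ := IsFractionRing.div_surjective (A := A) g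
      refine ⟨b, ?_, ?_⟩
      · rw [hQ0, Ideal.mem_bot]
        exact nonZeroDivisors.ne_zero hb
      · have hb0 : ((b : A) : F) ≠ 0 := by
          intro h
          exact nonZeroDivisors.ne_zero hb (Subtype.ext h)
        have : (b : F) * g = (a : F) := by
          rw [← hab]
          show (b : F) * ((a : F) / (b : F)) = _
          field_simp
        rw [this]
        exact a.2
    · let 𝔔 : HeightOneSpectrum A := ⟨Q, hQ, hQ0⟩
      have h1 : 𝔔.valuation F g ≤ 1 := le_of_eq (hg 𝔔 hQth)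
      obtain ⟨n, a, hna⟩ := 𝔔.exists_primeCompl_mul_eq_of_integer g h1
      refine ⟨(a : A), a.2, ?_⟩
      have : ((a : A) : F) * g = (n : F) := by
        rw [mul_comm]
        exact hna
      rw [this]
      exact n.2
  refine ⟨D, w₀, hD0, hw0, ?_, hreg w₀ hw0 hvw, hreg w₀⁻¹ (inv_ne_zero hw0) ?_⟩
  · rw [hw₀]
    field_simp
  · intro 𝔔 h𝔔
    rw [map_inv₀, hvw 𝔔 h𝔔, inv_one]

end Core


section Both

variable {O K F : Type*} [CommRing O] [IsDomain O] [IsDiscreteValuationRing O]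
  [Field K] [Algebra O K] [IsFractionRing O K]
  [Field F] [Algebra K F] [Algebra O F] [IsScalarTower O K F]

/-- a residue-trivial place of a prime of `A`: every element of `A` is a constant modulo the
prime. -/
theorem h11_rat_of_residueTrivial (A : Subring F)
    [IsDedekindDomain A] [IsFractionRing A F] [Algebra K A] [IsScalarTower K A F]
    (𝔓 : HeightOneSpectrum A)
    (h : Fermat.Agent.S24.RH.ResidueTrivial (placeOfPrime K 𝔓 (F := F))) :
    ∀ a : A, ∃ c : K, a - algebraMap K A c ∈ 𝔓.asIdeal := by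
  intro a
  have ha : (a : F) ∈ (placeOfPrime K 𝔓 (F := F)).toValuationSubring :=
    (mem_placeOfPrime_iff 𝔓 _).mpr (𝔓.valuation_le_one a)
  obtain ⟨c, hc⟩ := h ⟨(a : F), ha⟩
  refine ⟨c, ?_⟩
  have h1 := (mem_maximalIdeal_placeOfPrime_iff 𝔓 _).mp hc
  rw [← 𝔓.valuation_lt_one_iff_mem (K := F)]
  have e : algebraMap A F (a - algebraMap K A c) =
      ((⟨(a : F), ha⟩ - algebraMap K (placeOfPrime K 𝔓 (F := F)).toValuationSubring c :
        (placeOfPrime K 𝔓 (F := F)).toValuationSubring) : F) := by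
    rw [map_sub, ← IsScalarTower.algebraMap_apply K A F c]
    rfl
  have h2 : 𝔓.valuation F (algebraMap A F (a - algebraMap K A c)) < 1 := by
    rw [e]
    exact h1
  exact h2

/-- the order of `f` at the place of `𝔓` in terms of the valuation. -/
theorem h11_val_eq_exp_ord (A : Subring F)
    [IsDedekindDomain A] [IsFractionRing A F] [Algebra K A] [IsScalarTower K A F]
    (𝔓 : HeightOneSpectrum A) {f : F} (hf0 : f ≠ 0) :
    𝔓.valuation F f = exp (-((placeOfPrime K 𝔓 (F := F)).ord f)) := by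
  rw [ord_placeOfPrime, neg_neg, exp_log]
  exact (Valuation.ne_zero_iff _).mpr hf0

/-- **(LP) at a crossing point** = `hLP₁` / `hLP₂` of `h26_ss_abs` at `𝔫`. -/
theorem h11_LP_both
    (B A : Subring F) (hBA : B ≤ A) [IsNoetherianRing B]
    [IsDedekindDomain A] [IsFractionRing A F] [Algebra K A] [IsScalarTower K A F]
    (π : O) (hπ : Irreducible π)
    (hOB : ∀ c : O, algebraMap O F c ∈ B)
    (hA : ∀ a ∈ A, ∃ k : ℕ, algebraMap O F π ^ k * a ∈ B)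
    (m : ℕ) (f : F) (hf0 : f ≠ 0)
    (hdiv : ∀ P : Place K F, (m : ℤ) ∣ P.ord f)
    (hrat : ∀ P : Place K F, P.ord f ≠ 0 → Fermat.Agent.S24.RH.ResidueTrivial P)
    (𝔫 : Ideal B) [h𝔫 : 𝔫.IsPrime]
    (x y : B) (hxn : x ∈ 𝔫) (hyn : y ∈ 𝔫) (hπn : (⟨algebraMap O F π, hOB π⟩ : B) ∈ 𝔫)
    (hgen : ∀ b ∈ 𝔫, ∃ s ∉ 𝔫, ∃ a1 a2 a3 : B,
      s * b = a1 * x + a2 * y + a3 * ⟨algebraMap O F π, hOB π⟩)
    (hxy : ∃ s ∉ 𝔫, ∃ a : B, s * (x * y) = ⟨algebraMap O F π, hOB π⟩ * a)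
    (q1 q2 : Ideal B) [hq1 : q1.IsPrime] [hq2 : q2.IsPrime] (hq1n : q1 ≤ 𝔫) (hq2n : q2 ≤ 𝔫)
    (hyq1 : y ∈ q1) (hπq1 : (⟨algebraMap O F π, hOB π⟩ : B) ∈ q1) (hxq1 : x ∉ q1)
    (hgen1 : ∀ b ∈ q1, ∃ s ∉ 𝔫, ∃ a1 a2 : B, s * b = a1 * y + a2 * ⟨algebraMap O F π, hOB π⟩)
    (hxq2 : x ∈ q2) (hπq2 : (⟨algebraMap O F π, hOB π⟩ : B) ∈ q2) (hyq2 : y ∉ q2)
    (hgen2 : ∀ b ∈ q2, ∃ s ∉ 𝔫, ∃ a1 a2 : B, s * b = a1 * x + a2 * ⟨algebraMap O F π, hOB π⟩) :
    ∃ d w₀ : F, d ≠ 0 ∧ w₀ ≠ 0 ∧ f = d ^ m * w₀ ∧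
      (∃ s : B, s ∉ 𝔫 ∧ ∃ k : ℕ, (s : F) * algebraMap O F π ^ k * w₀ ∈ B) ∧
      (∃ s : B, s ∉ 𝔫 ∧ ∃ k : ℕ, (s : F) * algebraMap O F π ^ k * w₀⁻¹ ∈ B) := by
  classical
  have hπ0 : π ≠ 0 := hπ.ne_zero
  have hπK : algebraMap O K π ≠ 0 := by
    rwa [Ne, map_eq_zero_iff _ (IsFractionRing.injective O K)]
  set πF : F := algebraMap O F π with hπF
  have hπFK : πF = algebraMap K F (algebraMap O K π) := IsScalarTower.algebraMap_apply O K F π
  have hKA : ∀ c : K, algebraMap K F c ∈ A := by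
    intro c
    rw [IsScalarTower.algebraMap_apply K A F c]
    exact (algebraMap K A c).2
  have hπA : πF ∈ A := hBA (hOB π)
  have hπ'A : algebraMap K F (algebraMap O K π)⁻¹ ∈ A := hKA _
  have hππ' : πF * algebraMap K F (algebraMap O K π)⁻¹ = 1 := by
    rw [hπFK, ← map_mul, mul_inv_cancel₀ hπK, map_one]
  -- the `O`-algebra structure of `B`
  let oB : O →+* B := (algebraMap O F).codRestrict B hOB
  letI : Algebra O B := oB.toAlgebra
  have halg : ∀ o : O, algebraMap O B o = (⟨algebraMap O F o, hOB o⟩ : B) := fun o => rfl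
  have hsep : ∀ c : O, c ≠ 0 → ∃ N : ℕ, ¬ π ^ N ∣ c := by
    intro c hc
    obtain ⟨N, u, hu⟩ := IsDiscreteValuationRing.eq_unit_mul_pow_irreducible hc hπ
    refine ⟨N + 1, ?_⟩
    rintro ⟨t, ht⟩
    rw [hu, pow_succ] at ht
    have h1 : (u : O) = π * t := by
      have h2 : π ^ N * (u : O) = π ^ N * (π * t) := by
        linear_combination ht
      exact mul_left_cancel₀ (pow_ne_zero N hπ0) h2
    have h3 : IsUnit (π * t) := h1 ▸ u.isUnit
    exact hπ.not_isUnit (isUnit_of_mul_isUnit_left h3)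
  have hOloc : ∀ c : O, ¬ π ∣ c → IsUnit c := by
    intro c hc
    by_contra hnu
    have hmem : c ∈ IsLocalRing.maximalIdeal O := (IsLocalRing.mem_maximalIdeal c).mpr hnu
    rw [hπ.maximalIdeal_eq, Ideal.mem_span_singleton] at hmem
    exact hc hmem
  have h := h11_LP_core B A hBA πF hπA _ hπ'A hππ' hA 𝔫 m f hf0 ?_
  · obtain ⟨d, w₀, hd, hw, hfd, h1, h2⟩ := h
    exact ⟨d, w₀, hd, hw, hfd, h1, h2⟩
  -- the local equations
  intro 𝔓 hth hv
  have hval := h11_val_eq_exp_ord (K := K) A 𝔓 hf0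
  have hord : (placeOfPrime K 𝔓 (F := F)).ord f ≠ 0 := by
    intro h0
    rw [h0, neg_zero, exp_zero] at hval
    exact hv hval
  obtain ⟨e, he⟩ := hdiv (placeOfPrime K 𝔓 (F := F))
  refine ⟨e, by rw [hval, he], ?_⟩
  have hrat𝔓 := h11_rat_of_residueTrivial (K := K) A 𝔓 (hrat _ hord)
  obtain ⟨ev, hevO, hev0, hevn, ϖ, r, hϖ, hr, hreg⟩ :=
    h11_section B A hBA π hπ hOB hA 𝔫 hπn 𝔓 hth hrat𝔓
  let evA : B →ₐ[O] O := { ev with commutes' := fun o => hevO o }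
  have hevA : ∀ b : B, evA b = ev b := fun b => rfl
  have hres : ∀ b : B, ∃ c : O, b - algebraMap O B c ∈ 𝔫 := by
    intro b
    refine ⟨ev b, ?_⟩
    rw [hevn, map_sub, halg, hevO, sub_self]
    exact dvd_zero π
  obtain ⟨d, i, hd0, hdev, hd⟩ := Fermat.Agent.S34x.Node.H23.h23_node_lp 𝔫 π hπ0 hsep hOloc x y
    hxn hyn hπn hgen hres hxy q1 q2 hq1n hq2n hyq1 hπq1 hxq1 hgen1 hxq2 hπq2 hyq2 hgen2
    evA hevn ϖ r hϖ hr (fun z hz => ⟨1, fun h1 => h𝔫.ne_top ((Ideal.eq_top_iff_one _).mpr h1),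
      by
        obtain ⟨g, hg⟩ := hreg z hz
        exact ⟨g, by rw [one_mul, hg]⟩⟩)
  refine ⟨d, i, (hev0 d).mp hdev, ?_⟩
  intro z hz
  obtain ⟨s, hs, g, hsg⟩ := hd z ((hev0 z).mpr hz)
  refine ⟨s, hs, g, ?_⟩
  have h1 := congrArg (Subtype.val) hsg
  simpa [halg] using h1

end Both

end Fermat.Agent.S34x.Dict.H11
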