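import Mathlib
import Fermat.Agent.S34x.Dict.H16_Inst
import Fermat.Agent.S34x.Dict.H11_LPBoth

/-!
# S34 (W10), stage (F-INST) (helper16): `h11_LP_both` at the charts

`h16_LP_chart` : helper11's `h11_LP_both` instantiated at `B := (chart O j).toSubring`,
`A := (chart K j).toSubring`; no instance hypothesis is left: the only inputs are
`Transcendental O j`, `H26FinOver O j` (the inputs `hj`, `hfinF` of `h18_ss_step`), the divisor
hypotheses on `f` and the node shape at `𝔫`.  The conclusion is spelled with `InLoc`, as in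
`hLP₁` / `hLP₂` of `h18_ss_step`.

`h16_LP_chart_inv` : the same at the second chart `j'` (`j * j' = 1`).
-/

set_option autoImplicit false
set_option linter.style.haveILetI false
set_option linter.unusedSectionVars false
set_option linter.unusedVariables false

open AlgebraicCurve

namespace Fermat.Agent.S34x.Dict.H16

open Fermat.Agent.S18x.Spec.H26 Fermat.Agent.S34x.Loc.H26

variable {O K F : Type*} [CommRing O] [IsDomain O] [IsDiscreteValuationRing O]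
  [Field K] [Algebra O K] [IsFractionRing O K]
  [Field F] [CharZero F] [Algebra K F] [Algebra O F] [IsScalarTower O K F]

/-- **(LP) at a crossing point of the chart of `j`** (`h11_LP_both` at the charts). -/
theorem h16_LP_chart (π : O) (hπ : Irreducible π) {j : F} (hj : Transcendental O j)
    (hfin : H26FinOver O j)
    (m : ℕ) (f : F) (hf0 : f ≠ 0)
    (hdiv : ∀ P : Place K F, (m : ℤ) ∣ P.ord f)
    (hrat : ∀ P : Place K F, P.ord f ≠ 0 → Fermat.Agent.S24.RH.ResidueTrivial P)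
    (𝔫 : Ideal (chart O j).toSubring) [h𝔫 : 𝔫.IsPrime]
    (x y : (chart O j).toSubring) (hxn : x ∈ 𝔫) (hyn : y ∈ 𝔫)
    (hπn : (⟨algebraMap O F π, (chart O j).algebraMap_mem π⟩ : (chart O j).toSubring) ∈ 𝔫)
    (hgen : ∀ b ∈ 𝔫, ∃ s ∉ 𝔫, ∃ a1 a2 a3 : (chart O j).toSubring,
      s * b = a1 * x + a2 * y + a3 * ⟨algebraMap O F π, (chart O j).algebraMap_mem π⟩)
    (hxy : ∃ s ∉ 𝔫, ∃ a : (chart O j).toSubring,
      s * (x * y) = ⟨algebraMap O F π, (chart O j).algebraMap_mem π⟩ * a)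
    (q1 q2 : Ideal (chart O j).toSubring) [hq1 : q1.IsPrime] [hq2 : q2.IsPrime]
    (hq1n : q1 ≤ 𝔫) (hq2n : q2 ≤ 𝔫)
    (hyq1 : y ∈ q1)
    (hπq1 : (⟨algebraMap O F π, (chart O j).algebraMap_mem π⟩ : (chart O j).toSubring) ∈ q1)
    (hxq1 : x ∉ q1)
    (hgen1 : ∀ b ∈ q1, ∃ s ∉ 𝔫, ∃ a1 a2 : (chart O j).toSubring,
      s * b = a1 * y + a2 * ⟨algebraMap O F π, (chart O j).algebraMap_mem π⟩)
    (hxq2 : x ∈ q2)
    (hπq2 : (⟨algebraMap O F π, (chart O j).algebraMap_mem π⟩ : (chart O j).toSubring) ∈ q2)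
    (hyq2 : y ∉ q2)
    (hgen2 : ∀ b ∈ q2, ∃ s ∉ 𝔫, ∃ a1 a2 : (chart O j).toSubring,
      s * b = a1 * x + a2 * ⟨algebraMap O F π, (chart O j).algebraMap_mem π⟩) :
    ∃ d w₀ : F, d ≠ 0 ∧ w₀ ≠ 0 ∧ f = d ^ m * w₀ ∧
      InLoc (chart O j).toSubring (algebraMap O F π) 𝔫 w₀ ∧
      InLoc (chart O j).toSubring (algebraMap O F π) 𝔫 w₀⁻¹ := by
  letI : Algebra K (chart K j).toSubring := h16AlgK K j
  haveI : IsScalarTower K (chart K j).toSubring F := h16_tower K j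
  haveI : IsNoetherianRing (chart O j).toSubring := h16_isNoetherian hj hfin
  haveI : IsDedekindDomain (chart K j).toSubring :=
    h16_isDedekind K (h16_transcendental_K hj) (h16_finOver_K hfin)
  haveI : IsFractionRing (chart K j).toSubring F :=
    h16_isFractionRing K (h16_transcendental_K hj) (h16_finOver_K hfin)
  exact Fermat.Agent.S34x.Dict.H11.h11_LP_both (K := K) (chart O j).toSubring
    (chart K j).toSubring (h16_chart_le j) π hπ (h16_const_mem j) (h16_chart_scale π hπ j)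
    m f hf0 hdiv hrat 𝔫 x y hxn hyn hπn hgen hxy q1 q2 hq1n hq2n hyq1 hπq1 hxq1 hgen1
    hxq2 hπq2 hyq2 hgen2

/-- **(LP) at a crossing point of the second chart** `j'`, `j * j' = 1`: the inputs are those
of the first chart. -/
theorem h16_LP_chart_inv (π : O) (hπ : Irreducible π) {j j' : F} (hjj' : j * j' = 1)
    (hj : Transcendental O j) (hfin : H26FinOver O j)
    (m : ℕ) (f : F) (hf0 : f ≠ 0)
    (hdiv : ∀ P : Place K F, (m : ℤ) ∣ P.ord f)
    (hrat : ∀ P : Place K F, P.ord f ≠ 0 → Fermat.Agent.S24.RH.ResidueTrivial P)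
    (𝔫 : Ideal (chart O j').toSubring) [h𝔫 : 𝔫.IsPrime]
    (x y : (chart O j').toSubring) (hxn : x ∈ 𝔫) (hyn : y ∈ 𝔫)
    (hπn : (⟨algebraMap O F π, (chart O j').algebraMap_mem π⟩ : (chart O j').toSubring) ∈ 𝔫)
    (hgen : ∀ b ∈ 𝔫, ∃ s ∉ 𝔫, ∃ a1 a2 a3 : (chart O j').toSubring,
      s * b = a1 * x + a2 * y + a3 * ⟨algebraMap O F π, (chart O j').algebraMap_mem π⟩)
    (hxy : ∃ s ∉ 𝔫, ∃ a : (chart O j').toSubring,
      s * (x * y) = ⟨algebraMap O F π, (chart O j').algebraMap_mem π⟩ * a)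
    (q1 q2 : Ideal (chart O j').toSubring) [hq1 : q1.IsPrime] [hq2 : q2.IsPrime]
    (hq1n : q1 ≤ 𝔫) (hq2n : q2 ≤ 𝔫)
    (hyq1 : y ∈ q1)
    (hπq1 : (⟨algebraMap O F π, (chart O j').algebraMap_mem π⟩ : (chart O j').toSubring) ∈ q1)
    (hxq1 : x ∉ q1)
    (hgen1 : ∀ b ∈ q1, ∃ s ∉ 𝔫, ∃ a1 a2 : (chart O j').toSubring,
      s * b = a1 * y + a2 * ⟨algebraMap O F π, (chart O j').algebraMap_mem π⟩)
    (hxq2 : x ∈ q2)
    (hπq2 : (⟨algebraMap O F π, (chart O j').algebraMap_mem π⟩ : (chart O j').toSubring) ∈ q2)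
    (hyq2 : y ∉ q2)
    (hgen2 : ∀ b ∈ q2, ∃ s ∉ 𝔫, ∃ a1 a2 : (chart O j').toSubring,
      s * b = a1 * x + a2 * ⟨algebraMap O F π, (chart O j').algebraMap_mem π⟩) :
    ∃ d w₀ : F, d ≠ 0 ∧ w₀ ≠ 0 ∧ f = d ^ m * w₀ ∧
      InLoc (chart O j').toSubring (algebraMap O F π) 𝔫 w₀ ∧
      InLoc (chart O j').toSubring (algebraMap O F π) 𝔫 w₀⁻¹ :=
  h16_LP_chart (K := K) π hπ (h26_transcendental_inv O hjj' hj) (h26_finOver_inv O hjj' hfin)
    m f hf0 hdiv hrat 𝔫 x y hxn hyn hπn hgen hxy q1 q2 hq1n hq2n hyq1 hπq1 hxq1 hgen1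
    hxq2 hπq2 hyq2 hgen2

end Fermat.Agent.S34x.Dict.H16
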