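import Mathlib
import Fermat.Agent.S34x.Dict.H16_Inst
import Fermat.Agent.S34x.Loc.H26_LPAll

/-!
# S34 (W10), (F-INST) + (LP-ALL) (helper16): `hLP₁` / `hLP₂` of the step theorem at the charts

helper26's `h26_LP_chart` (the case split of `H7Comp`: (ONE) `h17_LP_one`, (BOTH)
`h11_LP_both`) with the instance layer of `H16_Inst` plugged in: no instance hypothesis is left.

* `h16_hLP₁` : `hLP₁` of `h18_ss_step` / `h25_ss_step_tau` (with `m` for `p ^ n`) from
  `Transcendental O j`, `H26FinOver O j` (the inputs `hj`, `hfinF` of the step theorem), the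
  stage export `H7Comp` of (C) at the chart of `j`, and `hdiv`, `hrat`;
* `h16_hLP₂` : the same at the chart of `j'`, `j * j' = 1` (the inputs `hj`, `hfin` are still
  those of `j`).
-/

set_option autoImplicit false
set_option linter.style.haveILetI false
set_option linter.unusedSectionVars false
set_option linter.unusedVariables false

open AlgebraicCurve

namespace Fermat.Agent.S34x.Dict.H16

open Fermat.Agent.S18x.Spec.H26 Fermat.Agent.S34x.Loc.H26 Fermat.Agent.S34x.Comp.H7

variable {O K F : Type*} [CommRing O] [IsDomain O] [IsDiscreteValuationRing O]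
  [Field K] [Algebra O K] [IsFractionRing O K]
  [Field F] [CharZero F] [Algebra K F] [Algebra O F] [IsScalarTower O K F]

/-- **`hLP₁` of the step theorem** from the stage export of (C), `hdiv` and `hrat`. -/
theorem h16_hLP₁ (π₀ : O) (hπ₀ : Irreducible π₀) {j : F} (hj : Transcendental O j)
    (hfin : H26FinOver O j)
    (hcomp : H7Comp (⟨algebraMap O F π₀, (chart O j).algebraMap_mem π₀⟩ :
      (chart O j).toSubring))
    (m : ℕ) (hm : 0 < m) (f : F) (hf0 : f ≠ 0)
    (hdiv : ∀ P : Place K F, (m : ℤ) ∣ P.ord f)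
    (hrat : ∀ P : Place K F, P.ord f ≠ 0 → Fermat.Agent.S24.RH.ResidueTrivial P) :
    ∀ 𝔫 : Ideal (chart O j).toSubring, 𝔫.IsMaximal →
      (⟨algebraMap O F π₀, (chart O j).algebraMap_mem π₀⟩ : (chart O j).toSubring) ∈ 𝔫 →
      ∃ d w₀ : F, d ≠ 0 ∧ w₀ ≠ 0 ∧ f = d ^ m * w₀ ∧
        InLoc (chart O j).toSubring (algebraMap O F π₀) 𝔫 w₀ ∧
        InLoc (chart O j).toSubring (algebraMap O F π₀) 𝔫 w₀⁻¹ := by
  letI : Algebra K (chart K j).toSubring := h16AlgK K j
  haveI : IsScalarTower K (chart K j).toSubring F := h16_tower K j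
  haveI : IsNoetherianRing (chart O j).toSubring := h16_isNoetherian hj hfin
  haveI : IsDedekindDomain (chart K j).toSubring :=
    h16_isDedekind K (h16_transcendental_K hj) (h16_finOver_K hfin)
  haveI : IsFractionRing (chart K j).toSubring F :=
    h16_isFractionRing K (h16_transcendental_K hj) (h16_finOver_K hfin)
  exact h26_LP_chart (K := K) j (chart K j).toSubring (h16_chart_le j) π₀ hπ₀
    (h16_chart_scale π₀ hπ₀ j) hcomp m hm f hf0 hdiv hrat

/-- **`hLP₂` of the step theorem**: the same at the second chart. -/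
theorem h16_hLP₂ (π₀ : O) (hπ₀ : Irreducible π₀) {j j' : F} (hjj' : j * j' = 1)
    (hj : Transcendental O j) (hfin : H26FinOver O j)
    (hcomp : H7Comp (⟨algebraMap O F π₀, (chart O j').algebraMap_mem π₀⟩ :
      (chart O j').toSubring))
    (m : ℕ) (hm : 0 < m) (f : F) (hf0 : f ≠ 0)
    (hdiv : ∀ P : Place K F, (m : ℤ) ∣ P.ord f)
    (hrat : ∀ P : Place K F, P.ord f ≠ 0 → Fermat.Agent.S24.RH.ResidueTrivial P) :
    ∀ 𝔫 : Ideal (chart O j').toSubring, 𝔫.IsMaximal →
      (⟨algebraMap O F π₀, (chart O j').algebraMap_mem π₀⟩ : (chart O j').toSubring) ∈ 𝔫 →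
      ∃ d w₀ : F, d ≠ 0 ∧ w₀ ≠ 0 ∧ f = d ^ m * w₀ ∧
        InLoc (chart O j').toSubring (algebraMap O F π₀) 𝔫 w₀ ∧
        InLoc (chart O j').toSubring (algebraMap O F π₀) 𝔫 w₀⁻¹ :=
  h16_hLP₁ (K := K) π₀ hπ₀ (h26_transcendental_inv O hjj' hj) (h26_finOver_inv O hjj' hfin)
    hcomp m hm f hf0 hdiv hrat

end Fermat.Agent.S34x.Dict.H16
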