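import Mathlib
import Fermat.Agent.S34x.Dict.H16_LPAllInst
import Fermat.Agent.S34x.Cross.H18_Step

/-!
# S34 (W10) (helper16): the step theorem with (C) + (F) plugged in

`h16_ss_step_comp` : helper18's `h18_ss_step` over a discrete valuation ring `O`, with the
hypotheses `hLP₁`, `hLP₂` REPLACED by the stage export `H7Comp` of (C) on both charts, `hdiv`
(`p ^ n` divides the divisor of `f`) and `hrat` (the zeros and poles of `f` are residue-trivial);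
every other hypothesis verbatim, same order (`hπ₀` is `Irreducible π₀`).
-/

set_option autoImplicit false
set_option linter.style.haveILetI false
set_option linter.unusedSectionVars false
set_option linter.unusedVariables false

open Polynomial AlgebraicCurve

namespace Fermat.Agent.S34x.Dict.H16

open Fermat.Agent.S18x.Spec.H26 Fermat.Agent.S34x.Loc.H26 Fermat.Agent.S34x.Comp.H7
  Fermat.Agent.S34x.Cross.H18

variable {O K F E : Type*} [CommRing O] [IsDomain O] [IsDiscreteValuationRing O]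
  [Field K] [Field F] [CharZero F] [Algebra O K] [IsFractionRing O K] [Algebra K F]
  [Algebra O F] [IsScalarTower O K F] [Field E] [Algebra F E]

/-- **The step theorem with (C) + (F) plugged in.** -/
theorem h16_ss_step_comp (π₀ : O) (hπ₀ : Irreducible π₀) (j j' : F) (hjj' : j * j' = 1)
    (hj : Transcendental O j) (hfinF : H26FinOver O j)
    (V : Subring F) (hVic : ∀ y : F, IsIntegral V y → y ∈ V)
    (hOV : ∀ c : O, algebraMap O F c ∈ V) (hjV : j ∈ V) (hj'V : j' ∈ V)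
    (hπV : ∀ v ∈ V, algebraMap O F π₀ * v ≠ 1)
    (hsat₁ : ∀ v ∈ V, algebraMap O F π₀ * v ∈ chart O j → v ∈ chart O j)
    (hsat₂ : ∀ v ∈ V, algebraMap O F π₀ * v ∈ chart O j' → v ∈ chart O j')
    (hsat₁₂ : ∀ v ∈ V, algebraMap O F π₀ * v ∈ chart₁₂ O j j' → v ∈ chart₁₂ O j j')
    (p : ℕ) (hp : p.Prime) (μ₀ : O) (hμ : μ₀ * (p : O) = 1)
    (hK : ∀ y : F, IsAlgebraic K y → y ∈ (algebraMap K F).range)
    (hE : ∀ P : K[X], P.Monic → Irreducible P →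
      ∃ r : E, aeval r (P.map (algebraMap K F)) = 0)
    (n k : ℕ) (hkn : k < n)
    (ζ₀ : O) (hζ₀ : IsPrimitiveRoot ζ₀ (p ^ n))
    (P₁ P₂ : Ideal V) [P₁.IsPrime] [P₂.IsPrime]
    (hπ₁ : (⟨algebraMap O F π₀, hOV π₀⟩ : V) ∈ P₁)
    (hπ₂ : (⟨algebraMap O F π₀, hOV π₀⟩ : V) ∈ P₂)
    (hcap : ∀ v : V, v ∈ P₁ → v ∈ P₂ → ∃ c ∈ V, (v : F) = algebraMap O F π₀ * c)
    (τ : F ≃+* F) (hτ₁ : ∀ b ∈ chart O j, τ b ∈ chart O j)
    (hτ₂ : ∀ b ∈ chart O j', τ b ∈ chart O j')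
    (ε ε' : O) (hεε' : ε * ε' = 1)
    (hε : τ (algebraMap O F π₀) = algebraMap O F ε * algebraMap O F π₀)
    (htriv : ∀ v ∈ V, ∃ c ∈ V, τ v - v = algebraMap O F π₀ * c)
    (hU : ∀ g : F, g ≠ 0 → τ g / g ∈ V ∧ g / τ g ∈ V)
    (f : F) (hf0 : f ≠ 0)
    (hcomp₁ : H7Comp (⟨algebraMap O F π₀, (chart O j).algebraMap_mem π₀⟩ :
      (chart O j).toSubring))
    (hcomp₂ : H7Comp (⟨algebraMap O F π₀, (chart O j').algebraMap_mem π₀⟩ :
      (chart O j').toSubring))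
    (hdiv : ∀ P : Place K F, ((p ^ n : ℕ) : ℤ) ∣ P.ord f)
    (hrat : ∀ P : Place K F, P.ord f ≠ 0 → Fermat.Agent.S24.RH.ResidueTrivial P)
    (g : F) (hg : g ^ (p ^ k) = secondDiff τ f) :
    ∃ y : E, y ^ (p ^ (k + 1)) = algebraMap F E (secondDiff τ f) :=
  h18_ss_step (K := K) π₀ hπ₀.prime j j' hjj' hj hfinF V hVic hOV hjV hj'V hπV hsat₁ hsat₂ hsat₁₂
    p hp μ₀ hμ hK hE n k hkn ζ₀ hζ₀ P₁ P₂ hπ₁ hπ₂ hcap τ hτ₁ hτ₂ ε ε' hεε' hε htriv hU f hf0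
    (h16_hLP₁ (K := K) π₀ hπ₀ hj hfinF hcomp₁ (p ^ n) (pow_pos hp.pos n) f hf0 hdiv hrat)
    (h16_hLP₂ (K := K) π₀ hπ₀ hjj' hj hfinF hcomp₂ (p ^ n) (pow_pos hp.pos n) f hf0 hdiv hrat)
    g hg

end Fermat.Agent.S34x.Dict.H16
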